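import Fermat.Agent.GD.Global.First.Local

/-!
# Places above, in a layer of prime degree
-/

set_option autoImplicit false
set_option linter.style.haveILetI false
set_option linter.unusedSectionVars false

noncomputable section

namespace Fermat.Agent.GD

open Finset
open Fermat.Agent.Galois (GQ)

variable {p : ℕ} [hp : Fact p.Prime] {H H' : Subgroup GQ} {t : GQ}

/-- The chosen element of the double coset of a place. -/
def placeRep {v : Place} {H : Subgroup GQ} (c : PlacesAbove v H) : GQ := Quotient.out c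

theorem mk_placeRep {v : Place} {H : Subgroup GQ} (c : PlacesAbove v H) :
    DoubleCoset.mk (decomp v) H (placeRep c) = c := DoubleCoset.out_eq' (decomp v) H c

theorem finite_placeQuot (v : Place) [H.FiniteIndex] : Finite (PlacesAbove v H) := by
  haveI : Finite (GQ ⧸ H) := Subgroup.finite_quotient_of_finiteIndex
  refine Finite.of_surjective (fun x : GQ ⧸ H => DoubleCoset.mk (decomp v) H x.out) fun c => ?_
  refine ⟨QuotientGroup.mk c.out, ?_⟩
  obtain ⟨k, hk⟩ := QuotientGroup.mk_out_eq_mul H c.out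
  show DoubleCoset.mk (decomp v) H (QuotientGroup.mk c.out : GQ ⧸ H).out = c
  conv_rhs => rw [← DoubleCoset.out_eq' (decomp v) H c]
  rw [hk]
  exact ((DoubleCoset.eq _ _ _ _).mpr ⟨1, (decomp v).one_mem, k, k.2, by rw [one_mul]⟩).symm

theorem CycP.pow_mem' (hc : CycP p H H' t) {g : GQ} (hg : g ∈ H) : g ^ p ∈ H' := by
  haveI := hc.normal
  have h : ((⟨g, hg⟩ : H) : H ⧸ H'.subgroupOf H) ^ p = 1 := by
    have hall : ∀ x : H ⧸ H'.subgroupOf H, x ^ p = 1 := fun x => by
      rw [← hc.card_quot]; exact pow_card_eq_one'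
    exact hall _
  rw [← QuotientGroup.mk_pow, QuotientGroup.eq_one_iff, Subgroup.mem_subgroupOf] at h
  simpa using h

/-- The archimedean place splits in a layer of odd degree. -/
theorem not_nonSplit_none (hc : CycP p H H' t) (hp2 : p ≠ 2) (r : GQ) :
    ¬ NonSplit none H H' r := by
  rintro ⟨e, he⟩
  obtain ⟨k, hk⟩ := hp.out.odd_of_ne_two hp2
  obtain ⟨hfin, hdvd⟩ := finite_decomp_none
  have h2 : e ^ 2 = 1 := Subtype.ext (by
    rw [SubgroupClass.coe_pow]
    exact orderOf_dvd_iff_pow_eq_one.mp ((orderOf_dvd_natCard (e : decomp none)).trans hdvd))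
  have h3 : cj e ^ p = cj e := by
    rw [← cj_pow, hk, pow_succ, pow_mul, h2, one_pow, one_mul]
  refine he ?_
  rw [← h3, SubgroupClass.coe_pow]
  exact hc.pow_mem' (cj e).2

/-- The number of places above in the two fields. -/
theorem card_placesAbove (hc : CycP p H H' t) [H.FiniteIndex] [H'.FiniteIndex] (v : Place) :
    Nat.card (PlacesAbove v H') +
        (p - 1) * Nat.card {c : PlacesAbove v H // NonSplit v H H' (placeRep c)} =
      p * Nat.card (PlacesAbove v H) := by
  classical
  haveI := finite_placeQuot (H := H) v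
  haveI := finite_placeQuot (H := H') v
  letI := Fintype.ofFinite (PlacesAbove v H)
  set π : PlacesAbove v H' → PlacesAbove v H := fun c => DoubleCoset.mk (decomp v) H c.out with hπ
  have hπmk : ∀ g : GQ, π (DoubleCoset.mk (decomp v) H' g) = DoubleCoset.mk (decomp v) H g := fun g => by
    obtain ⟨a, b, ha, hb, e⟩ := DoubleCoset.mk_out_eq_mul (decomp v) H' g
    show DoubleCoset.mk (decomp v) H _ = _
    rw [e]
    exact ((DoubleCoset.eq _ _ _ _).mpr ⟨a, ha, b, hc.le hb, rfl⟩).symm
  have hfib : ∀ c : PlacesAbove v H, Nat.card {c' : PlacesAbove v H' // π c' = c} +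
      (if NonSplit v H H' (placeRep c) then p - 1 else 0) = p := by
    intro c
    set r := placeRep c with hr
    let f : Fin p → {c' : PlacesAbove v H' // π c' = c} := fun i =>
      ⟨DoubleCoset.mk (decomp v) H' (r * t ^ (i : ℕ)), by
        rw [hπmk]
        conv_rhs => rw [← mk_placeRep c]
        exact ((DoubleCoset.eq _ _ _ _).mpr
          ⟨1, (decomp v).one_mem, t ^ (i : ℕ), H.pow_mem hc.mem i, by rw [one_mul]⟩).symm⟩
    have hsurj : Function.Surjective f := by
      rintro ⟨c', hc'⟩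
      have h1 : DoubleCoset.mk (decomp v) H c'.out = DoubleCoset.mk (decomp v) H r :=
        hc'.trans (mk_placeRep c).symm
      obtain ⟨d, hd, k, hk, e⟩ := (DoubleCoset.eq _ _ _ _).mp h1.symm
      obtain ⟨i, hi, hik⟩ := hc.exists_rep hk
      refine ⟨⟨i, hi⟩, Subtype.ext ?_⟩
      show DoubleCoset.mk (decomp v) H' (r * t ^ i) = c'
      conv_rhs => rw [← DoubleCoset.out_eq' (decomp v) H' c']
      exact (DoubleCoset.eq _ _ _ _).mpr ⟨d, hd, _, hik, by rw [e]; group⟩
    by_cases hns : NonSplit v H H' r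
    · rw [if_pos hns]
      obtain ⟨e, he⟩ := hc.exists_gen hns
      have hconst : ∀ i : Fin p, f i = f ⟨0, hp.out.pos⟩ := fun i => Subtype.ext (by
        show DoubleCoset.mk (decomp v) H' (r * t ^ (i : ℕ)) = DoubleCoset.mk (decomp v) H' (r * t ^ 0)
        refine ((DoubleCoset.eq _ _ _ _).mpr ⟨(((e : decomp v) ^ (i : ℕ) : decomp v) : GQ), SetLike.coe_mem _,
          (((cj e : H) : GQ) ^ (i : ℕ))⁻¹ * t ^ (i : ℕ), hc.pow_congr (cj e).2 he i, ?_⟩).symm
        rw [pow_zero, mul_one, ← SubgroupClass.coe_pow (cj e) i, ← cj_pow,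
          show (((e : decomp v) ^ (i : ℕ) : decomp v) : GQ) * r = r * ((cj (e ^ (i : ℕ)) : H) : GQ) by
            rw [mul_cj]; simp]
        group)
      haveI : Subsingleton {c' : PlacesAbove v H' // π c' = c} := ⟨fun a b => by
        obtain ⟨i, rfl⟩ := hsurj a
        obtain ⟨j, rfl⟩ := hsurj b
        rw [hconst i, hconst j]⟩
      haveI : Nonempty {c' : PlacesAbove v H' // π c' = c} := ⟨f ⟨0, hp.out.pos⟩⟩
      rw [Nat.card_unique]
      have := hp.out.pos
      omega
    · rw [if_neg hns, add_zero, ← Nat.card_eq_of_bijective f ⟨fun i j h => ?_, hsurj⟩,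
        Nat.card_eq_fintype_card, Fintype.card_fin]
      obtain ⟨d, hd, s, hs, e⟩ := (DoubleCoset.eq _ _ _ _).mp (congrArg Subtype.val h)
      have e' : r⁻¹ * d * r⁻¹⁻¹ = t ^ (j : ℕ) * s⁻¹ * (t ^ (i : ℕ))⁻¹ := by
        rw [eq_mul_inv_iff_mul_eq, eq_mul_inv_iff_mul_eq, ← mul_left_cancel_iff (a := r), e]
        group
      have hdH : (⟨d, hd⟩ : decomp v) ∈ locSub (decomp v) H r := by
        show r⁻¹ * d * r⁻¹⁻¹ ∈ H
        rw [e']
        exact H.mul_mem (H.mul_mem (H.pow_mem hc.mem j) (H.inv_mem (hc.le hs)))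
          (H.inv_mem (H.pow_mem hc.mem i))
      have hdH' : r⁻¹ * d * r⁻¹⁻¹ ∈ H' := by_contra fun hnot => hns ⟨⟨_, hdH⟩, hnot⟩
      rw [e'] at hdH'
      have h1 := H'.mul_mem (hc.conj_mem (H.pow_mem hc.mem i) hdH') hs
      refine Fin.ext (hc.eq_of_rep i.2 j.2 ?_)
      convert h1 using 1
      group
  rw [Nat.card_congr (Equiv.sigmaFiberEquiv π).symm, Nat.card_sigma,
    Nat.card_eq_fintype_card (α := PlacesAbove v H), Nat.card_eq_fintype_card, Fintype.card_subtype,
    mul_comm p, mul_comm (p - 1), ← smul_eq_mul, ← Finset.sum_const, Finset.sum_filter,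
    ← Finset.sum_add_distrib, Finset.sum_congr rfl fun c _ => hfib c, Finset.sum_const, smul_eq_mul,
    Finset.card_univ]

/-- The indices of the places in `T` where the layer does not split. -/
abbrev NSIdx (T : Finset Nat.Primes) (H H' : Subgroup GQ) : Type :=
  {c : Σ q : T, PlacesAbove (some q.1) H // NonSplit (some c.1.1) H H' (placeRep c.2)}

theorem finite_nsIdx (T : Finset Nat.Primes) (H H' : Subgroup GQ) [H.FiniteIndex] :
    Finite (NSIdx T H H') := by
  haveI := fun q : T => finite_placeQuot (H := H) (some q.1)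
  infer_instance

theorem sum_card_placesAbove (hc : CycP p H H' t) (hp2 : p ≠ 2) [H.FiniteIndex] [H'.FiniteIndex]
    (T : Finset Nat.Primes) :
    ∑ v ∈ placesOf T, Nat.card (PlacesAbove v H') + (p - 1) * Nat.card (NSIdx T H H') =
      p * ∑ v ∈ placesOf T, Nat.card (PlacesAbove v H) := by
  haveI := fun q : T => finite_placeQuot (H := H) (some q.1)
  haveI : IsEmpty {c : PlacesAbove none H // NonSplit none H H' (placeRep c)} :=
    ⟨fun c => not_nonSplit_none hc hp2 _ c.2⟩
  have h : Nat.card (NSIdx T H H') =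
      ∑ v ∈ placesOf T, Nat.card {c : PlacesAbove v H // NonSplit v H H' (placeRep c)} := by
    rw [placesOf, Finset.sum_insertNone, Nat.card_of_isEmpty (α := {c : PlacesAbove none H // NonSplit none H H' (placeRep c)}), zero_add, Finset.sum_coe_sort T
        (fun q => Nat.card {c : PlacesAbove (some q) H // NonSplit (some q) H H' (placeRep c)}) |>.symm,
      ← Nat.card_sigma]
    exact Nat.card_congr ⟨fun c => ⟨c.1.1, c.1.2, c.2⟩, fun c => ⟨⟨c.1, c.2.1⟩, c.2.2⟩, fun _ => rfl,
      fun _ => rfl⟩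
  rw [h, Finset.mul_sum, Finset.mul_sum, ← Finset.sum_add_distrib]
  exact Finset.sum_congr rfl fun v _ => card_placesAbove hc v

end Fermat.Agent.GD
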