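import Fermat.Agent.GD.Global.ClassFormation.Cyclic

/-!
# A normal subgroup of prime index: generators, norms and cocycles
-/

set_option autoImplicit false
set_option linter.unusedSectionVars false
set_option linter.style.haveILetI false

noncomputable section

namespace Fermat.Agent.GD

open Finset

universe u w

variable {G : Type u} [Group G] {p : ℕ} [hp : Fact p.Prime] {H H' : Subgroup G} {t : G}

/-- A normal subgroup of index `p` with a generator of the quotient. -/
structure CycP (p : ℕ) (H H' : Subgroup G) (t : G) : Prop where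
  le : H' ≤ H
  normal : (H'.subgroupOf H).Normal
  index : (H'.subgroupOf H).index = p
  mem : t ∈ H
  notMem : t ∉ H'

theorem exists_cycP (hle : H' ≤ H) (hn : (H'.subgroupOf H).Normal)
    (hidx : (H'.subgroupOf H).index = p) : ∃ t, CycP p H H' t := by
  obtain ⟨t, ht, ht'⟩ : ∃ t ∈ H, t ∉ H' := by
    by_contra hc
    push Not at hc
    have h : H'.subgroupOf H = ⊤ := eq_top_iff.mpr fun x _ => Subgroup.mem_subgroupOf.mpr (hc x x.2)
    rw [h, Subgroup.index_top] at hidx
    exact hp.out.ne_one hidx.symm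
  exact ⟨t, hle, hn, hidx, ht, ht'⟩

namespace CycP

variable (hc : CycP p H H' t)
include hc

theorem conj_mem {g k : G} (hg : g ∈ H) (hk : k ∈ H') : g⁻¹ * k * g ∈ H' := by
  have h := hc.normal.conj_mem ⟨k, hc.le hk⟩ (Subgroup.mem_subgroupOf.mpr hk) ⟨g, hg⟩⁻¹
  simpa [Subgroup.mem_subgroupOf] using! h

theorem card_quot : Nat.card (H ⧸ H'.subgroupOf H) = p := by
  rw [← Subgroup.index_eq_card, hc.index]

/-- Powers of the generator in the quotient. -/
theorem bijective_pow : Function.Bijective fun i : Fin p =>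
    (((⟨t, hc.mem⟩ : H) ^ (i : ℕ) : H) : H ⧸ H'.subgroupOf H) := by
  haveI := hc.normal
  haveI : Finite (H ⧸ H'.subgroupOf H) :=
    Nat.finite_of_card_ne_zero (hc.card_quot.trans_ne hp.out.ne_zero)
  haveI : Fintype (H ⧸ H'.subgroupOf H) := Fintype.ofFinite _
  have hall : ∀ x : H ⧸ H'.subgroupOf H, x ^ p = 1 := fun x => by
    rw [← hc.card_quot]; exact pow_card_eq_one'
  have hne : (((⟨t, hc.mem⟩ : H) : H) : H ⧸ H'.subgroupOf H) ≠ 1 := fun h =>
    hc.notMem (Subgroup.mem_subgroupOf.mp ((QuotientGroup.eq_one_iff _).mp h))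
  have hord : orderOf (((⟨t, hc.mem⟩ : H) : H) : H ⧸ H'.subgroupOf H) = p :=
    orderOf_eq_prime (hall _) hne
  refine (Fintype.bijective_iff_injective_and_card _).mpr ⟨fun i j h => Fin.ext ?_, ?_⟩
  · exact pow_injOn_Iio_orderOf (x := (((⟨t, hc.mem⟩ : H) : H) : H ⧸ H'.subgroupOf H))
      (by rw [hord]; exact i.2) (by rw [hord]; exact j.2)
      h
  · rw [Fintype.card_fin, ← Nat.card_eq_fintype_card, hc.card_quot]

theorem mk_eq_iff (a b : H) :
    (a : H ⧸ H'.subgroupOf H) = b ↔ (a : G)⁻¹ * b ∈ H' := by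
  rw [QuotientGroup.eq, Subgroup.mem_subgroupOf, Subgroup.coe_mul, Subgroup.coe_inv]

theorem exists_rep {g : G} (hg : g ∈ H) : ∃ i < p, (t ^ i)⁻¹ * g ∈ H' := by
  obtain ⟨i, hi⟩ := hc.bijective_pow.2 ((⟨g, hg⟩ : H) : H ⧸ H'.subgroupOf H)
  exact ⟨i, i.2, by simpa using (hc.mk_eq_iff _ _).mp hi⟩

theorem eq_of_rep {i j : ℕ} (hi : i < p) (hj : j < p) (h : (t ^ i)⁻¹ * t ^ j ∈ H') : i = j :=
  congrArg Fin.val (hc.bijective_pow.1 (a₁ := ⟨i, hi⟩) (a₂ := ⟨j, hj⟩)
    ((hc.mk_eq_iff _ _).mpr (by simpa using h)))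

theorem pow_prime_mem : t ^ p ∈ H' := by
  haveI := hc.normal
  haveI : Finite (H ⧸ H'.subgroupOf H) :=
    Nat.finite_of_card_ne_zero (hc.card_quot.trans_ne hp.out.ne_zero)
  have hall : ∀ x : H ⧸ H'.subgroupOf H, x ^ p = 1 := fun x => by
    rw [← hc.card_quot]; exact pow_card_eq_one'
  have h := hall (((⟨t, hc.mem⟩ : H) : H) : H ⧸ H'.subgroupOf H)
  rw [← QuotientGroup.mk_pow, QuotientGroup.eq_one_iff, Subgroup.mem_subgroupOf] at h
  simpa using h

variable {M : Type w} [AddCommGroup M] [DistribMulAction G M] {y : M}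
  (hy : ∀ s ∈ H', s • y = y)
include hy

theorem smul_fixed {g : G} (hg : g ∈ H) {s : G} (hs : s ∈ H') : s • g • y = g • y := by
  rw [← mul_smul, show s * g = g * (g⁻¹ * s * g) by group, mul_smul, hy _ (hc.conj_mem hg hs)]

theorem smul_pow_add (i : ℕ) : t ^ (i + p) • y = t ^ i • y := by
  rw [pow_add, mul_smul, hy _ hc.pow_prime_mem]

theorem smul_eq_of_rep {g : G} (i : ℕ) (h : (t ^ i)⁻¹ * g ∈ H') : g • y = t ^ i • y := by
  conv_lhs => rw [show g = t ^ i * ((t ^ i)⁻¹ * g) by group, mul_smul, hy _ h]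

/-- The norm of a fixed point is fixed by the whole group. -/
theorem smul_sum_fixed {g : G} (hg : g ∈ H) :
    g • ∑ i ∈ range p, t ^ i • y = ∑ i ∈ range p, t ^ i • y := by
  have ht : t • ∑ i ∈ range p, t ^ i • y = ∑ i ∈ range p, t ^ i • y := by
    rw [smul_sum]
    have h := sum_range_succ' (fun i => t ^ i • y) p
    rw [sum_range_succ, show t ^ p • y = t ^ 0 • y by simpa using hc.smul_pow_add hy 0] at h
    refine (Eq.trans ?_ (add_right_cancel h).symm)
    exact sum_congr rfl fun i _ => by rw [pow_succ', mul_smul]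
  obtain ⟨i, -, hi⟩ := hc.exists_rep hg
  have hti : ∀ i : ℕ, t ^ i • ∑ i ∈ range p, t ^ i • y = ∑ i ∈ range p, t ^ i • y := fun i => by
    induction i with
    | zero => rw [pow_zero, one_smul]
    | succ i ih => rw [pow_succ, mul_smul, ht, ih]
  rw [show g = t ^ i * ((t ^ i)⁻¹ * g) by group, mul_smul, smul_sum,
    sum_congr rfl fun j _ => hc.smul_fixed hy (H.pow_mem hc.mem j) hi, hti]

/-- An element of norm zero is the value at the generator of a cocycle trivial on the subgroup. -/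
theorem exists_cocycle (hy0 : ∑ i ∈ range p, t ^ i • y = 0) :
    ∃ f : H → M, f ⟨t, hc.mem⟩ = y ∧ (∀ a b : H, f (a * b) = f a + (a : G) • f b) ∧
      (∀ a s : H, (s : G) ∈ H' → f (a * s) = f a) ∧ ∀ s : H, (s : G) ∈ H' → f s = 0 := by
  choose idx hidx hrep using fun g : H => hc.exists_rep g.2
  let S : ℕ → M := fun k => ∑ j ∈ range k, t ^ j • y
  have hadd : ∀ a b, S (a + b) = S a + t ^ a • S b := fun a b => by
    simp only [S, sum_range_add, smul_sum, ← mul_smul, ← pow_add]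
  have hSp : ∀ k, S (k + p) = S k := fun k => by
    rw [hadd, show S p = 0 from hy0, smul_zero, add_zero]
  have hmod : ∀ k, S k = S (k % p) := by
    intro k
    induction k using Nat.strongRecOn with
    | _ k ih =>
      by_cases hk : k < p
      · rw [Nat.mod_eq_of_lt hk]
      · obtain ⟨j, rfl⟩ := Nat.exists_eq_add_of_le' (not_lt.mp hk)
        rw [hSp, ih j (by have := hp.out.pos; omega), Nat.add_mod_right]
  have hS : ∀ g : H, ∀ k, (t ^ k)⁻¹ * (g : G) ∈ H' → S (idx g) = S k := by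
    intro g k hk
    have hkp : ∀ n : ℕ, (t ^ p) ^ n ∈ H' := fun n => H'.pow_mem hc.pow_prime_mem n
    rw [hmod k]
    congr 1
    refine hc.eq_of_rep (hidx g) (Nat.mod_lt _ hp.out.pos) ?_
    have h := H'.mul_mem (H'.mul_mem (hrep g) (H'.inv_mem hk)) (H'.inv_mem (hkp (k / p)))
    rw [← pow_mul] at h
    convert h using 1
    have e : t ^ k = t ^ (k % p) * t ^ (p * (k / p)) := by
      rw [← pow_add, Nat.mod_add_div]
    rw [e]
    group
  have hfix : ∀ a : G, a ∈ H → ∀ k, ∀ s ∈ H', s • a • S k = a • S k := fun a ha k s hs => by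
    simp only [S, smul_sum, ← mul_smul a]
    exact sum_congr rfl fun j _ => hc.smul_fixed hy (H.mul_mem ha (H.pow_mem hc.mem j)) hs
  refine ⟨fun g => S (idx g), ?_, fun a b => ?_, fun a s hs => ?_, fun s hs => ?_⟩
  · show S (idx ⟨t, hc.mem⟩) = y
    rw [hS ⟨t, hc.mem⟩ 1 (by simp)]
    simp [S]
  · show S (idx (a * b)) = S (idx a) + (a : G) • S (idx b)
    rw [hS (a * b) (idx a + idx b) ?_, hadd,
      show (a : G) • S (idx b) = t ^ idx a • S (idx b) from ?_]
    · conv_lhs => rw [show (a : G) = t ^ idx a * ((t ^ idx a)⁻¹ * a) by group, mul_smul]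
      congr 1
      have h1 := hfix 1 H.one_mem (idx b) _ (hrep a)
      rwa [one_smul] at h1
    · have h := H'.mul_mem (hc.conj_mem (H.pow_mem hc.mem (idx b)) (hrep a)) (hrep b)
      convert h using 1
      rw [pow_add, Subgroup.coe_mul]
      group
  · exact hS (a * s) (idx a) (by
      have h := H'.mul_mem (hrep a) hs
      rw [Subgroup.coe_mul, ← mul_assoc]
      exact h)
  · show S (idx s) = 0
    rw [hS s 0 (by simpa using hs)]
    simp [S]

end CycP

/-- Two cocycles trivial on the subgroup agreeing at the generator are equal. -/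
theorem CycP.cocycle_ext {M : Type w} [AddCommGroup M] [DistribMulAction G M] (hc : CycP p H H' t)
    (f f' : H → M) (hf : ∀ a b : H, f (a * b) = f a + (a : G) • f b)
    (hf' : ∀ a b : H, f' (a * b) = f' a + (a : G) • f' b)
    (h0 : ∀ s : H, (s : G) ∈ H' → f s = 0) (h0' : ∀ s : H, (s : G) ∈ H' → f' s = 0)
    (ht : f ⟨t, hc.mem⟩ = f' ⟨t, hc.mem⟩) : f = f' := by
  have hpow : ∀ i : ℕ, f (⟨t, hc.mem⟩ ^ i) = f' (⟨t, hc.mem⟩ ^ i) := fun i => by
    induction i with
    | zero => rw [pow_zero, h0 1 H'.one_mem, h0' 1 H'.one_mem]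
    | succ i ih => rw [pow_succ, hf, hf', ih, ht]
  funext g
  obtain ⟨i, -, hi⟩ := hc.exists_rep g.2
  have e : g = ⟨t, hc.mem⟩ ^ i * ((⟨t, hc.mem⟩ : H) ^ i)⁻¹ * g := by group
  have hs : ((((⟨t, hc.mem⟩ : H) ^ i)⁻¹ * g : H) : G) ∈ H' := by simpa using hi
  rw [e, mul_assoc, hf, hf', hpow, h0 _ hs, h0' _ hs]

variable {L : LevelGroup.{u}} {C : Type w} [AddCommGroup C] [DistribMulAction L.G C]

/-- The norm from a subgroup of index `p`. -/
theorem CycP.nm_eq {H H' : Subgroup L.G} {t : L.G} (hc : CycP p H H' t) {y : C}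
    (hy : y ∈ fixPts C H') : nm H H' y = ∑ i ∈ range p, t ^ i • y := by
  rw [nm_eq_sum _ hc.bijective_pow hy, sum_range (fun i => t ^ i • y)]
  refine sum_congr rfl fun i _ => ?_
  rw [SubgroupClass.coe_pow]

end Fermat.Agent.GD
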