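import Fermat.Agent.GD.Local.Herbrand
import Fermat.Agent.GD.Global.Basic.Ideles
import Fermat.Agent.GD.Global.First.Cyclic

/-!
# The index of the norms of units away from a big set of primes
-/

set_option autoImplicit false
set_option linter.style.haveILetI false
set_option linter.unusedSectionVars false

noncomputable section

namespace Fermat.Agent.GD

open Finset
open Fermat.Agent.Galois (GQ)

local notation "ℚb" => AlgebraicClosure ℚ

/-- The product of the conjugates under the powers of an element. -/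
def powProd (p : ℕ) (t : GQ) : ℚbˣ →* ℚbˣ where
  toFun x := ∏ i ∈ range p, t ^ i • x
  map_one' := prod_eq_one fun i _ => smul_one (t ^ i)
  map_mul' x y := by simp only [smul_mul', prod_mul_distrib]

variable {p : ℕ} [hp : Fact p.Prime] {H H' : Subgroup GQ} {t : GQ} {T : Finset Nat.Primes}

theorem powProd_apply (x : ℚbˣ) : powProd p t x = ∏ i ∈ range p, t ^ i • x := rfl

theorem smul_mem_sUnits (hc : CycP p H H' t) {g : GQ} (hg : g ∈ H) {x : ℚbˣ}
    (hx : x ∈ sUnits T H') : g • x ∈ sUnits T H' :=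
  ⟨fun s hs => congrArg Additive.toMul (hc.smul_fixed (M := Additive ℚbˣ) (y := Additive.ofMul x)
      (fun s hs => congrArg Additive.ofMul (hx.1 s hs)) hg hs),
    fun q hq g' => by rw [← mul_smul]; exact hx.2 q hq (g' * g)⟩

theorem powProd_mem_sUnits (hc : CycP p H H' t) {x : ℚbˣ} (hx : x ∈ sUnits T H') :
    powProd p t x ∈ sUnits T H := by
  have hmem : powProd p t x ∈ sUnits T H' :=
    prod_mem fun i _ => smul_mem_sUnits hc (H.pow_mem hc.mem i) hx
  refine ⟨fun g hg => congrArg Additive.toMul (?_ : g • Additive.ofMul (powProd p t x) = _), hmem.2⟩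
  have e : Additive.ofMul (powProd p t x) = ∑ i ∈ range p, t ^ i • Additive.ofMul x := rfl
  rw [e]
  exact hc.smul_sum_fixed (M := Additive ℚbˣ) (fun s hs => congrArg Additive.ofMul (hx.1 s hs)) hg

/-- The generator, as an endomorphism. -/
def sAct (hc : CycP p H H' t) (T : Finset Nat.Primes) : AddMonoid.End (Additive (sUnits T H')) :=
  MonoidHom.toAdditive
    { toFun := fun x => ⟨t • (x : ℚbˣ), smul_mem_sUnits hc hc.mem x.2⟩
      map_one' := Subtype.ext (smul_one t)
      map_mul' := fun x y => Subtype.ext (smul_mul' t (x : ℚbˣ) (y : ℚbˣ)) }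

/-- The inclusion of the units away from `T`, additively. -/
def sIncl (T : Finset Nat.Primes) (H' : Subgroup GQ) : Additive (sUnits T H') →+ Additive ℚbˣ :=
  MonoidHom.toAdditive (sUnits T H').subtype

theorem sIncl_injective : Function.Injective (sIncl T H') := fun _ _ h =>
  Additive.toMul.injective (Subtype.ext (congrArg Additive.toMul h))

theorem sIncl_sAct_pow (hc : CycP p H H' t) (i : ℕ) (x : Additive (sUnits T H')) :
    sIncl T H' ((sAct hc T ^ i) x) = t ^ i • sIncl T H' x := by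
  induction i with
  | zero => rw [pow_zero, pow_zero, one_smul]; rfl
  | succ i ih => rw [pow_succ', pow_succ', mul_smul, ← ih]; rfl

theorem val_unit_pow_eq_one {q : Nat.Primes} {μ : ℚbˣ} {n : ℕ} (hn : n ≠ 0) (hμ : μ ^ n = 1) :
    μ ∈ (placeAt q).unitGroup := by
  rw [ValuationSubring.mem_unitGroup_iff]
  have h := congrArg (fun z : ℚbˣ => (placeAt q).valuation (z : ℚb)) hμ
  simp only [Units.val_pow_eq_pow_val, map_pow, Units.val_one, map_one] at h
  exact (pow_left_inj₀ zero_le zero_le hn).mp (h.trans (one_pow n).symm)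

/-- A number whose coboundary consists of units away from `T` can be modified by a fixed number to
become such a unit. -/
theorem exists_sUnit_div {N : Subgroup GQ} (hN : (LT T).IsLevel N) (hle : N ≤ H) (hbig : IsBig T N)
    {u : ℚbˣ} (hu : ∀ s ∈ N, s • u = u)
    (hval : ∀ q ∉ T, ∀ g : GQ, ∀ h ∈ H, (placeAt q).valuation (((g * h) • u : ℚbˣ) : ℚb) =
      (placeAt q).valuation ((g • u : ℚbˣ) : ℚb)) :
    ∃ x : ℚbˣ, (∀ h ∈ H, (h : GQ) • x = x) ∧ ∀ q ∉ T, ∀ g : GQ, g • (u / x) ∈ (placeAt q).unitGroup := by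
  classical
  haveI := normal_of_level hN
  let qu : Nat.Primes → ℚbˣ := fun q => Units.mk0 ((q : ℕ) : ℚb) (by exact_mod_cast q.2.ne_zero)
  have hqu : ∀ q (g : GQ), g • qu q = qu q := fun q g => Units.ext (map_natCast g _)
  have hex : ∀ q ∉ T, ∀ g : GQ, ∃ k : ℤ, (placeAt q).valuation ((g • u : ℚbˣ) : ℚb) =
      (placeAt q).valuation ((qu q : ℚbˣ) : ℚb) ^ k := by
    intro q hq g
    refine NewVec.exists_val_eq_zpow_of_fixed q.2 (placeAt_liesOverPrime q) (fun σ hσ => ?_)
      (g • u).ne_zero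
    have hσN : g⁻¹ * σ * g⁻¹⁻¹ ∈ N := by
      obtain ⟨s, hs, rfl⟩ := hσ
      exact Subgroup.Normal.conj_mem ‹N.Normal› _
        (Subgroup.mem_subgroupOf.mp (inertia_le_level hN hq s ⟨s, hs, rfl⟩)) g⁻¹
    have h : σ • g • u = g • u := by
      rw [← mul_smul, show σ * g = g * (g⁻¹ * σ * g⁻¹⁻¹) by group, mul_smul, hu _ hσN]
    exact congrArg Units.val h
  choose K hK using hex
  let E : Nat.Primes → GQ → ℤ := fun q g =>
    if _h : q ∈ T then 0 else
      if h' : ∃ k : ℤ, (placeAt q).valuation ((g • u : ℚbˣ) : ℚb) =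
        (placeAt q).valuation ((qu q : ℚbˣ) : ℚb) ^ k then h'.choose else 0
  have hE : ∀ q ∉ T, ∀ g, (placeAt q).valuation ((g • u : ℚbˣ) : ℚb) =
      (placeAt q).valuation ((qu q : ℚbˣ) : ℚb) ^ E q g := fun q hq g => by
    have h' : ∃ k : ℤ, (placeAt q).valuation ((g • u : ℚbˣ) : ℚb) =
        (placeAt q).valuation ((qu q : ℚbˣ) : ℚb) ^ k := ⟨_, hK q hq g⟩
    simp only [E, dif_neg hq, dif_pos h']
    exact h'.choose_spec
  have hEcongr : ∀ q g g', (q ∉ T → (placeAt q).valuation ((g • u : ℚbˣ) : ℚb) =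
      (placeAt q).valuation ((g' • u : ℚbˣ) : ℚb)) → E q g = E q g' := fun q g g' h => by
    by_cases hq : q ∈ T
    · simp only [E, dif_pos hq]
    · simp only [E, dif_neg hq, h hq]
  have hqval : ∀ q (k : ℤ), (placeAt q).valuation ((qu q ^ k : ℚbˣ) : ℚb) =
      (placeAt q).valuation ((qu q : ℚbˣ) : ℚb) ^ k := fun q k => by
    rw [Units.val_zpow_eq_zpow_val, map_zpow₀]
  have hE0 : ∀ q ∈ T, ∀ g, E q g = 0 := fun q hq g => dif_pos hq
  clear_value E
  let B : Place → GQ → Additive ℚbˣ := fun v g =>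
    Option.rec (0 : Additive ℚbˣ) (fun q => Additive.ofMul (qu q ^ E q g)) v
  have hB : ∀ v, IsComp (decomp v) N (B v) := by
    rintro (_ | q)
    · exact ⟨fun d _ => (smul_zero d).symm, fun _ _ _ => rfl⟩
    · refine ⟨fun d g => ?_, fun g s hs => ?_⟩
      · show Additive.ofMul (qu q ^ E q ((d : GQ) * g)) = Additive.ofMul ((d : GQ) • qu q ^ E q g)
        rw [smul_zpow', hqu, hEcongr q ((d : GQ) * g) g fun _ => by
          rw [mul_smul]
          exact Galois.valuation_apply_eq (σ := (d : GQ)) d.2 _]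
      · show Additive.ofMul (qu q ^ E q (g * s)) = Additive.ofMul (qu q ^ E q g)
        rw [hEcongr q (g * s) g fun _ => by rw [mul_smul, hu s hs]]
  let f : idele T := ideleOfComp hN B hB ((diag_finite u).subset fun q hq => by
    obtain ⟨g, hg⟩ := hq
    refine ⟨g, fun h => hg ?_⟩
    show qu q ^ E q g ∈ (placeAt q).unitGroup
    by_cases hq : q ∈ T
    · rw [hE0 q hq, zpow_zero]; exact one_mem _
    · rw [ValuationSubring.mem_unitGroup_iff, hqval, ← hE q hq g]
      exact (ValuationSubring.mem_unitGroup_iff _ _).mp h)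
  obtain ⟨x, hx, hfx⟩ := hbig H hle f fun h hh => funext fun v => funext fun g => by
    cases v with
    | none => rfl
    | some q =>
      show qu q ^ E q (g * h) = qu q ^ E q g
      rw [hEcongr q (g * h) g fun hq => hval q hq g h hh]
  refine ⟨x, hx, fun q hq g => ?_⟩
  have h1 := (ValuationSubring.mem_unitGroup_iff _ _).mp (hfx q hq g)
  rw [ValuationSubring.mem_unitGroup_iff, smul_div', Units.val_div_eq_div_val, map_div₀]
  rw [Units.val_div_eq_div_val, map_div₀] at h1
  have h2 : (placeAt q).valuation ((f.1 (some q) g : ℚbˣ) : ℚb) =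
      (placeAt q).valuation ((g • u : ℚbˣ) : ℚb) := by
    show (placeAt q).valuation ((qu q ^ E q g : ℚbˣ) : ℚb) = _
    rw [hqval, hE q hq g]
  rwa [h2] at h1

/-- The index of the norms of units away from a big set of primes. -/
theorem norm_sUnits_relIndex (hc : CycP p H H' t) {N : Subgroup GQ} (hN : (LT T).IsLevel N)
    (hle : N ≤ H') (hbig : IsBig T N) (hμ : FixesMu p H) {P P' n : ℕ}
    (hP : Nat.card (sUnits T H ⧸ powers p (sUnits T H)) = p ^ P)
    (hP' : Nat.card (sUnits T H' ⧸ powers p (sUnits T H')) = p ^ P')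
    (hn : P' + (p - 1) * n = p * P) :
    ((sUnits T H').map (powProd p t)).relIndex (sUnits T H) * p = p ^ n := by
  classical
  haveI : NeZero p := ⟨hp.out.ne_zero⟩
  have hfix : ∀ x : (Additive (sUnits T H')), ∀ s ∈ H', s • sIncl T H' x = sIncl T H' x := fun x s hs =>
    congrArg Additive.ofMul (x.toMul.2.1 s hs)
  have hsA : (sAct hc T) ^ p = 1 := AddMonoidHom.ext fun x => sIncl_injective
    ((sIncl_sAct_pow hc p x).trans (hfix x _ hc.pow_prime_mem))
  have hsum : ∀ x : (Additive (sUnits T H')), sIncl T H' ((∑ i ∈ range p, (sAct hc T) ^ i) x) =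
      Additive.ofMul (powProd p t (x.toMul : ℚbˣ)) := fun x => by
    rw [end_sum_apply, map_sum, sum_congr rfl fun i _ => sIncl_sAct_pow hc i x]
    rfl
  have hH1 : ∀ x, (∑ i ∈ range p, (sAct hc T) ^ i) x = 0 → ∃ y, (sAct hc T) y - y = x := by
    intro x hx
    obtain ⟨f, hft, hf, hfs, hf0⟩ := hc.exists_cocycle (M := Additive ℚbˣ) (hfix x) (by
      have h := hsum x
      rw [hx, map_zero] at h
      exact h.symm)
    obtain ⟨u, huN, hu⟩ := exists_smul_div_eq_global (H := H) hN (hle.trans hc.le)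
      (fun g => (f g).toMul) (fun g h => congrArg Additive.toMul (hf g h))
      (fun g s hs => congrArg Additive.toMul (hfs g s (hle hs)))
    have huH' : ∀ s ∈ H', (s : GQ) • u = u := fun s hs => by
      have h := hu ⟨s, hc.le hs⟩
      rw [hf0 ⟨s, hc.le hs⟩ hs] at h
      exact div_eq_one.mp h.symm
    have htu : t • u = (x.toMul : ℚbˣ) * u := by
      have h := hu ⟨t, hc.mem⟩
      rw [hft] at h
      rw [eq_div_iff_mul_eq'] at h
      exact h.symm
    have hval : ∀ q ∉ T, ∀ g : GQ, ∀ h ∈ H, (placeAt q).valuation (((g * h) • u : ℚbˣ) : ℚb) =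
        (placeAt q).valuation ((g • u : ℚbˣ) : ℚb) := by
      intro q hq g h hh
      obtain ⟨i, -, hi⟩ := hc.exists_rep hh
      rw [show g * h = g * t ^ i * ((t ^ i)⁻¹ * h) by group, mul_smul, huH' _ hi]
      clear hi
      induction i with
      | zero => rw [pow_zero, mul_one]
      | succ i ih =>
        rw [pow_succ, ← mul_assoc, mul_smul, htu, smul_mul', Units.val_mul, map_mul, ih,
          (ValuationSubring.mem_unitGroup_iff _ _).mp (x.toMul.2.2 q hq (g * t ^ i)), one_mul]
    obtain ⟨z, hz, hzu⟩ := exists_sUnit_div (H := H) hN (hle.trans hc.le) hbig huN hval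
    refine ⟨Additive.ofMul ⟨u / z, fun s hs => by
      rw [smul_div', huH' s hs, hz s (hc.le hs)], hzu⟩, sIncl_injective ?_⟩
    refine Additive.toMul.injective ?_
    show t • (u / z) / (u / z) = (x.toMul : ℚbˣ)
    rw [smul_div', htu, hz t hc.mem, mul_div_assoc, mul_div_cancel_right]
  set m : (Additive (sUnits T H')) →+ (Additive (sUnits T H')) := nsmulAddMonoidHom (α := (Additive (sUnits T H'))) p
  set F : AddSubgroup (Additive (sUnits T H')) := AddMonoidHom.ker ((sAct hc T) - 1 : AddMonoid.End (Additive (sUnits T H')))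
  have hF : ∀ x : (Additive (sUnits T H')), x ∈ F ↔ t • sIncl T H' x = sIncl T H' x := fun x => by
    refine sub_eq_zero.trans ⟨fun h => congrArg (sIncl T H') h, fun h => sIncl_injective h⟩
  have hμfix : ∀ μ : ℚbˣ, μ ^ p = 1 → ∀ h ∈ H, (h : GQ) • μ = μ := fun μ hμ1 h hh =>
    Units.ext (hμ h hh (μ : ℚb) (by rw [← Units.val_pow_eq_pow_val, hμ1, Units.val_one]))
  have hker : ∀ x : (Additive (sUnits T H')), x ∈ m.ker → x ∈ F := fun x hx => by
    refine (hF x).mpr (congrArg Additive.ofMul (hμfix _ ?_ t hc.mem))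
    exact congrArg (fun z : (Additive (sUnits T H')) => ((z.toMul : sUnits T H') : ℚbˣ)) hx
  have hμcard : Nat.card m.ker = p := by
    obtain ⟨ζ, hζ⟩ := HasEnoughRootsOfUnity.exists_primitiveRoot ℚb p
    refine Eq.trans ?_ hζ.card_rootsOfUnity
    refine Nat.card_congr
      ⟨fun x => ⟨((x : (Additive (sUnits T H'))).toMul : ℚbˣ), congrArg (fun z : (Additive (sUnits T H')) => ((z.toMul : sUnits T H') : ℚbˣ)) x.2⟩,
        fun μ => ⟨Additive.ofMul ⟨(μ : ℚbˣ), fun h hh => hμfix _ μ.2 h (hc.le hh), fun q _ g =>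
          val_unit_pow_eq_one hp.out.ne_zero (by rw [← smul_pow', μ.2, smul_one])⟩,
          Additive.toMul.injective (Subtype.ext μ.2)⟩, fun _ => rfl, fun _ => rfl⟩
  have htate := relIndex_norm_range hp.out (sAct hc T) hsA hH1 (hμcard.trans_ne hp.out.ne_zero)
  rw [inf_of_le_left hker, hμcard] at htate
  -- the terms of the formula
  have hFmap : F.map (sIncl T H') = (sUnits T H).toAddSubgroup := by
    ext z
    constructor
    · rintro ⟨x, hx, rfl⟩
      refine ⟨fun h hh => ?_, x.toMul.2.2⟩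
      obtain ⟨i, -, hi⟩ := hc.exists_rep hh
      refine congrArg Additive.toMul (?_ : h • sIncl T H' x = sIncl T H' x)
      have hti : ∀ j : ℕ, t ^ j • sIncl T H' x = sIncl T H' x := fun j => by
        induction j with
        | zero => rw [pow_zero, one_smul]
        | succ j ih => rw [pow_succ, mul_smul, (hF x).mp hx, ih]
      rw [show h = t ^ i * ((t ^ i)⁻¹ * h) by group, mul_smul, hfix x _ hi, hti]
    · intro hz
      exact ⟨Additive.ofMul ⟨z.toMul, fun s hs => hz.1 s (hc.le hs), hz.2⟩,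
        (hF _).mpr (congrArg Additive.ofMul (hz.1 t hc.mem)), rfl⟩
  have hN' : (∑ i ∈ range p, (sAct hc T) ^ i).range.map (sIncl T H') =
      ((sUnits T H').map (powProd p t)).toAddSubgroup := by
    ext z
    constructor
    · rintro ⟨_, ⟨x, rfl⟩, rfl⟩
      exact ⟨(x.toMul : ℚbˣ), x.toMul.2, (congrArg Additive.toMul (hsum x)).symm⟩
    · rintro ⟨x, hx, hxz⟩
      exact ⟨_, ⟨Additive.ofMul ⟨x, hx⟩, rfl⟩,
        (hsum (Additive.ofMul ⟨x, hx⟩)).trans (congrArg Additive.ofMul hxz)⟩
  have hR : (∑ i ∈ range p, (sAct hc T) ^ i).range.relIndex F =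
      ((sUnits T H').map (powProd p t)).relIndex (sUnits T H) := by
    rw [← AddSubgroup.relIndex_map_map_of_injective _ _ sIncl_injective, hN', hFmap,
      Subgroup.relIndex_toAddSubgroup]
  have hQ : m.range.index = p ^ P' := by
    rw [← hP', ← Subgroup.index_eq_card, ← Subgroup.index_toAddSubgroup]
    rfl
  have hQ0 : (F.map m).relIndex F = p ^ P := by
    have e : (F.map m).map (sIncl T H') = ((sUnits T H).map (powMonoidHom p)).toAddSubgroup := by
      ext z
      constructor
      · rintro ⟨_, ⟨x, hx, rfl⟩, rfl⟩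
        refine ⟨(sIncl T H' x).toMul, ?_, rfl⟩
        exact (hFmap ▸ AddSubgroup.mem_map_of_mem _ hx : sIncl T H' x ∈ (sUnits T H).toAddSubgroup)
      · rintro ⟨x, hx, hxz⟩
        have hx' : Additive.ofMul x ∈ F.map (sIncl T H') := hFmap.symm ▸ hx
        obtain ⟨y, hy, hyx⟩ := hx'
        refine ⟨_, ⟨y, hy, rfl⟩, ?_⟩
        show sIncl T H' (p • y) = z
        rw [map_nsmul, hyx]
        exact congrArg Additive.ofMul hxz
    rw [← AddSubgroup.relIndex_map_map_of_injective _ _ sIncl_injective, e, hFmap,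
      Subgroup.relIndex_toAddSubgroup, ← hP, ← Subgroup.index_eq_card]
    show (((sUnits T H).map (powMonoidHom p)).subgroupOf (sUnits T H)).index = _
    congr 1
    ext z
    exact ⟨fun ⟨y, hy, e⟩ => ⟨⟨y, hy⟩, Subtype.ext e⟩,
      fun ⟨y, e⟩ => ⟨(y : ℚbˣ), y.2, congrArg Subtype.val e⟩⟩
  rw [hR, hQ, hQ0] at htate
  set R := ((sUnits T H').map (powProd p t)).relIndex (sUnits T H)
  obtain ⟨k, hk⟩ : ∃ k, p = k + 1 := ⟨p - 1, by have := hp.out.pos; omega⟩
  have hk0 : k ≠ 0 := fun h => hp.out.ne_one (by rw [hk, h])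
  have hpk : p - 1 = k := by omega
  rw [hpk] at htate hn
  refine Nat.pow_left_injective hk0 (mul_right_cancel₀ (pow_ne_zero (P' + 1) hp.out.ne_zero) ?_)
  calc (R * p) ^ k * p ^ (P' + 1) = R ^ k * p ^ P' * p ^ p := by
        rw [show p ^ p = p ^ k * p by rw [← pow_succ, ← hk], mul_pow, pow_succ]; ring
    _ = (p ^ P) ^ p * p := htate
    _ = (p ^ n) ^ k * p ^ (P' + 1) := by
        rw [← pow_mul, ← pow_mul, ← pow_succ, ← pow_add, mul_comm P p, ← hn]
        ring_nf

end Fermat.Agent.GD
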