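import Fermat.Agent.GD.Global.ClassFormation.Reciprocity
import Fermat.Agent.GD.Global.First.Places
import Fermat.Agent.GD.Global.First.SUnits

/-!
# Local norm residues of fixed ideles and norms of ideles
-/

set_option autoImplicit false
set_option linter.style.haveILetI false
set_option linter.unusedSectionVars false

noncomputable section

namespace Fermat.Agent.GD

open Finset
open Fermat.Agent.Galois (GQ)

local notation "ℚb" => AlgebraicClosure ℚ

theorem isLevel_of_subset {T T' : Finset Nat.Primes} (h : T ⊆ T') {N : Subgroup GQ}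
    (hN : (LT T).IsLevel N) : (LT T').IsLevel N := by
  obtain ⟨F, hF, e, hn⟩ := hN
  exact ⟨F, hF.mono h, e, hn⟩

theorem idele_le_of_subset {T T' : Finset Nat.Primes} (h : T ⊆ T') : idele T ≤ idele T' := by
  rintro f ⟨h1, ⟨N, hN, h2⟩, h3⟩
  exact ⟨h1, ⟨N, isLevel_of_subset h hN, h2⟩, h3⟩

variable {p : ℕ} [hp : Fact p.Prime] {T : Finset Nat.Primes} {H H' : Subgroup GQ} {t : GQ}

/-- The ideles fixed by a subgroup. -/
def fixedIdeles (T : Finset Nat.Primes) (H : Subgroup GQ) : Subgroup IdeleFn where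
  carrier := {f | f ∈ idele T ∧ ∀ v g, ∀ h ∈ H, f v (g * h) = f v g}
  one_mem' := ⟨one_mem _, fun _ _ _ _ => rfl⟩
  mul_mem' := fun hx hy => ⟨mul_mem hx.1 hy.1, fun v g h hh => by
    simp only [Pi.mul_apply, hx.2 v g h hh, hy.2 v g h hh]⟩
  inv_mem' := fun hx => ⟨inv_mem hx.1, fun v g h hh => by
    simp only [Pi.inv_apply, hx.2 v g h hh]⟩

theorem fixedIdeles_smul {f : idele T} (hf : f.1 ∈ fixedIdeles T H) (h : GQ) (hh : h ∈ H) :
    (show (LT T).G from h) • f = f :=
  Subtype.ext (funext fun v => funext fun g => hf.2 v g h hh)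

theorem mem_fixedIdeles {f : idele T} (hf : ∀ h ∈ H, (show (LT T).G from h) • f = f) :
    f.1 ∈ fixedIdeles T H :=
  ⟨f.2, fun v g h hh => apply_mul_of_fixed (hf h hh) v g⟩

theorem isComp_fixed {f : IdeleFn} (hf : f ∈ fixedIdeles T H) (v : Place) :
    IsComp (decomp v) H (fun g => Additive.ofMul (f v g)) :=
  ⟨fun d g => congrArg Additive.ofMul (hf.1.1 v d d.2 g),
    fun g s hs => congrArg Additive.ofMul (hf.2 v g s hs)⟩

theorem diag_mem_fixedIdeles {N : Subgroup GQ} (hN : (LT T).IsLevel N) (hle : N ≤ H) {x : ℚbˣ}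
    (hx : ∀ h ∈ H, (h : GQ) • x = x) : diag x ∈ fixedIdeles T H :=
  ⟨⟨fun v d _ g => mul_smul d g x, ⟨N, hN, fun v g s hs => by
      show (g * s) • x = g • x
      rw [mul_smul, hx s (hle hs)]⟩, diag_finite x⟩,
    fun v g h hh => by
      show (g * h) • x = g • x
      rw [mul_smul, hx h hh]⟩

theorem diag_mem_classKer {N : Subgroup GQ} (hN : (LT T).IsLevel N) (hle : N ≤ H) {x : ℚbˣ}
    (hx : ∀ h ∈ H, (h : GQ) • x = x) :
    (⟨diag x, (diag_mem_fixedIdeles hN hle hx).1⟩ : idele T) ∈ classKer T :=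
  Subgroup.mem_subgroupOf.mpr (Subgroup.mem_sup_left ⟨x, ⟨N, hN, fun s hs => hx s (hle hs)⟩, rfl⟩)

theorem unitsOut_mem_classKer {f : idele T} (hf : f.1 ∈ unitsOut T) : f ∈ classKer T :=
  Subgroup.mem_subgroupOf.mpr (Subgroup.mem_sup_right hf)

theorem toClass_eq_zero_iff {f : idele T} : toClass T f = 0 ↔ f ∈ classKer T :=
  (QuotientGroup.eq_one_iff f)

/-- A fixed trivial idele is a fixed number times fixed units away from `T`. -/
theorem exists_decomp_classKer {N : Subgroup GQ} (hN : (LT T).IsLevel N) (hle : N ≤ H) {f : idele T}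
    (hf : f.1 ∈ fixedIdeles T H) (hk : f ∈ classKer T) :
    ∃ x : ℚbˣ, (∀ h ∈ H, (h : GQ) • x = x) ∧ ∃ u : idele T, u.1 ∈ fixedIdeles T H ∧
      u.1 ∈ unitsOut T ∧ ∀ v g, f.1 v g = g • x * u.1 v g := by
  rw [classKer, Subgroup.mem_subgroupOf, Subgroup.mem_sup] at hk
  obtain ⟨_, ⟨x, -, rfl⟩, u, hu, e⟩ := hk
  have hx : ∀ h ∈ H, (h : GQ) • x = x := fun h hh => by
    have h1 := hf.2 none 1 h hh
    rw [one_mul] at h1
    rw [← congrFun (congrFun e none) h, ← congrFun (congrFun e none) 1] at h1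
    simp only [Pi.mul_apply, hu.1, mul_one] at h1
    exact h1.trans (one_smul GQ x)
  have hd := diag_mem_fixedIdeles hN hle hx
  have hu' : u ∈ fixedIdeles T H := by
    have h1 := mul_mem (inv_mem hd) hf
    rwa [← e, inv_mul_cancel_left] at h1
  exact ⟨x, hx, ⟨u, hu'.1⟩, hu', hu, fun v g => (congrFun (congrFun e v) g).symm⟩

/-- An idele of a fixed field differs from one of units away from a big set by a fixed number. -/
theorem exists_adjust {T' : Finset Nat.Primes} (hT : T ⊆ T') {N : Subgroup GQ} (hle : N ≤ H)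
    (hbig : IsBig T' N) {f : IdeleFn} (hf : f ∈ fixedIdeles T H) :
    ∃ x : ℚbˣ, (∀ h ∈ H, (h : GQ) • x = x) ∧
      ∀ q ∉ T', ∀ g : GQ, f (some q) g / (g • x) ∈ (placeAt q).unitGroup :=
  hbig H hle ⟨f, idele_le_of_subset hT hf.1⟩ fun h hh =>
    funext fun v => funext fun g => hf.2 v g h hh

theorem nm_idele_apply_range (hc : CycP p H H' t) {f : idele T} (hf : f.1 ∈ fixedIdeles T H')
    (v : Place) (g : GQ) :
    (nm (L := LT T) H H' (Additive.ofMul f)).toMul.1 v g =
      ∏ i ∈ range p, f.1 v (g * t ^ i) := by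
  rw [nm_idele_apply (H := H) (K := H') _ hc.bijective_pow
    (fun k hk => fixedIdeles_smul hf k hk) v g, ← Fin.prod_univ_eq_prod_range]
  exact prod_congr rfl fun i _ => congrArg (fun k => f.1 v (g * k)) (SubgroupClass.coe_pow _ _)

theorem nm_mem_fixedIdeles {N : Subgroup GQ} (hN : (LT T).IsLevel N)
    (hle : N ≤ H') {f : idele T} (hf : f.1 ∈ fixedIdeles T H') :
    (nm (L := LT T) H H' (Additive.ofMul f)).toMul.1 ∈ fixedIdeles T H :=
  mem_fixedIdeles fun h hh => congrArg Additive.toMul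
    (nm_mem (L := LT T) (H := H) (K := H') ⟨N, hN, hle⟩
      (y := Additive.ofMul f) (fun k hk => congrArg Additive.ofMul (fixedIdeles_smul hf k hk))
      (show (LT T).G from h) hh)

/-- Fixed units away from `T` are norms of such. -/
theorem exists_unitsOut_norm (hc : CycP p H H' t) {N : Subgroup GQ} (hN : (LT T).IsLevel N)
    (hle : N ≤ H') {u : idele T} (hu : u.1 ∈ fixedIdeles T H) (hu' : u.1 ∈ unitsOut T) :
    ∃ y : idele T, y.1 ∈ fixedIdeles T H' ∧ y.1 ∈ unitsOut T ∧
      ∀ v g, ∏ i ∈ range p, y.1 v (g * t ^ i) = u.1 v g := by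
  classical
  have hex : ∀ v : Place, ∃ Y : GQ → Additive ℚbˣ, IsComp (decomp v) H' Y ∧
      (v ∈ placesOf T → ∀ g, Y g = 0) ∧ (∀ q, v = some q → ∀ g, Y g ∈ unitA q) ∧
      ∀ g, ∑ i ∈ range p, Y (g * t ^ i) = Additive.ofMul (u.1 v g) := by
    intro v
    by_cases hv : v ∈ placesOf T
    · refine ⟨fun _ => 0, ⟨fun d _ => (smul_zero d).symm, fun _ _ _ => rfl⟩, fun _ _ => rfl,
        fun q _ _ => zero_mem _, fun g => ?_⟩
      rw [sum_const_zero]
      cases v with
      | none => rw [hu'.1]; rfl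
      | some q => rw [hu'.2.1 q (Finset.some_mem_insertNone.mp hv)]; rfl
    · cases v with
      | none => exact absurd (Finset.mem_insertNone.mpr (by simp)) hv
      | some q =>
        obtain ⟨Y, hY, hYU, hYe⟩ := exists_unit_norm_comp (q := q) hc hN hle
          (fun h => hv (Finset.some_mem_insertNone.mpr h)) _ (isComp_fixed hu (some q))
          (fun g => hu'.2.2 q g)
        exact ⟨Y, hY, fun h => absurd h hv, fun q' hq' => Option.some_inj.mp hq' ▸ hYU, hYe⟩
  choose Y hY hY0 hYU hYe using hex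
  let y : idele T := ideleOfComp hN Y (fun v => ⟨(hY v).equiv, fun g s hs => (hY v).inv g s (hle hs)⟩)
    (Set.finite_empty.subset fun q ⟨g, hg⟩ => hg (hYU (some q) q rfl g))
  refine ⟨y, ⟨y.2, fun v g h hh => congrArg Additive.toMul ((hY v).inv g h hh)⟩,
    ⟨fun g => congrArg Additive.toMul (hY0 none (Finset.mem_insertNone.mpr (by simp)) g),
      fun q hq g => congrArg Additive.toMul (hY0 (some q) (Finset.some_mem_insertNone.mpr hq) g),
      fun q g => hYU (some q) q rfl g⟩,
    fun v g => congrArg Additive.toMul (hYe v g)⟩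

/-- The local norms, as a subgroup of the fixed units. -/
def locNorms {v : Place} (K K' : Subgroup (LD v).G) : Subgroup (fixedUnits K) :=
  Subgroup.closure {x : fixedUnits K | ∃ y ∈ fixedUnits K', (x : ℚbˣ) =
    ∏ᶠ s : K ⧸ K'.subgroupOf K, ((s.out : K) : (LD v).G) • y}

theorem mem_locNorms {v : Place} {K K' : Subgroup (LD v).G} (hK' : (LD v).IsOpen K')
    {x : fixedUnits K} {y : Additive ℚbˣ} (hy : y ∈ fixPts (Additive ℚbˣ) K')
    (e : Additive.ofMul (x : ℚbˣ) = nm K K' y) : x ∈ locNorms K K' := by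
  refine Subgroup.subset_closure ⟨y.toMul, fun h hh => congrArg Additive.toMul (hy h hh), ?_⟩
  haveI := finite_quot (H := K) hK'
  haveI : Fintype (K ⧸ K'.subgroupOf K) := Fintype.ofFinite _
  rw [finprod_eq_prod_of_fintype]
  rw [nm, finsum_eq_sum_of_fintype] at e
  exact (congrArg Additive.toMul e).trans (toMul_sum _ _)

/-- The decomposition subgroup at an index. -/
abbrev nsLoc (T₂ : Finset Nat.Primes) (H H' K : Subgroup GQ) (c : NSIdx T₂ H H') :
    Subgroup (LD (some c.1.1.1)).G :=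
  locSub (decomp (some c.1.1.1)) K (placeRep c.1.2)

/-- The groups of local norm residues at the places of `T₂` where the layer does not split. -/
def Residues (T₂ : Finset Nat.Primes) (H H' : Subgroup GQ) : Type :=
  ∀ c : NSIdx T₂ H H',
    fixedUnits (nsLoc T₂ H H' H c) ⧸ locNorms (nsLoc T₂ H H' H c) (nsLoc T₂ H H' H' c)

instance residuesCommGroup (T₂ : Finset Nat.Primes) (H H' : Subgroup GQ) :
    CommGroup (Residues T₂ H H') :=
  inferInstanceAs (CommGroup (∀ c : NSIdx T₂ H H',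
    fixedUnits (nsLoc T₂ H H' H c) ⧸ locNorms (nsLoc T₂ H H' H c) (nsLoc T₂ H H' H' c)))

/-- The local norm residues at the places of `T₂` where the layer does not split. -/
def theta (T T₂ : Finset Nat.Primes) (H H' : Subgroup GQ) :
    fixedIdeles T H →* Residues T₂ H H' :=
  MonoidHom.pi fun c => (QuotientGroup.mk' (locNorms (nsLoc T₂ H H' H c) (nsLoc T₂ H H' H' c))).comp
    { toFun := fun f => ⟨f.1 (some c.1.1.1) (placeRep c.1.2), fun h hh => congrArg Additive.toMul
        ((isComp_fixed f.2 (some c.1.1.1)).mem_fixPts (r := placeRep c.1.2) h hh)⟩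
      map_one' := rfl
      map_mul' := fun _ _ => rfl }

variable {T₂ : Finset Nat.Primes}

theorem theta_eq_one (hc : CycP p H H' t) {N : Subgroup GQ} (hN : (LT T).IsLevel N) (hle : N ≤ H')
    (f : fixedIdeles T H) {y : IdeleFn} (hy : y ∈ fixedIdeles T H')
    (e : ∀ v g, f.1 v g = ∏ i ∈ range p, y v (g * t ^ i)) : theta T T₂ H H' f = 1 := by
  haveI := normal_of_level hN
  funext c
  refine (QuotientGroup.eq_one_iff (N := locNorms (nsLoc T₂ H H' H c) (nsLoc T₂ H H' H' c)) _).mpr ?_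
  obtain ⟨g₀, hg₀⟩ := hc.exists_gen c.2
  refine mem_locNorms ⟨_, isLevel_LD_of_LT hN _, subgroupOf_le_locSub hle _ _⟩
    ((isComp_fixed hy (some c.1.1.1)).mem_fixPts (r := (placeRep c.1.2))) ?_
  refine Eq.trans ?_ (norm_comp_apply hc hg₀ (isComp_fixed hy (some c.1.1.1)))
  exact (congrArg Additive.ofMul (e _ _)).trans (ofMul_prod _ _)

theorem theta_surjective {N : Subgroup GQ} (hN : (LT T).IsLevel N) (hle : N ≤ H)
    (x : Residues T₂ H H') :
    ∃ f : fixedIdeles T H, theta T T₂ H H' f = x ∧ ∀ q ∉ T₂, ∀ g, f.1 (some q) g = 1 := by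
  classical
  choose a ha using fun c => QuotientGroup.mk_surjective (x c)
  let val : ∀ v : Place, GQ → Additive ℚbˣ := fun v r =>
    if h : ∃ c : NSIdx T₂ H H', v = some c.1.1.1 ∧ r = (placeRep c.1.2) then
      Additive.ofMul ((a h.choose : fixedUnits (nsLoc T₂ H H' H h.choose)) : ℚbˣ) else 0
  have hval : ∀ c : NSIdx T₂ H H', val (some c.1.1.1) (placeRep c.1.2) = Additive.ofMul (a c : ℚbˣ) := by
    intro c
    have hex : ∃ c' : NSIdx T₂ H H', some c.1.1.1 = some c'.1.1.1 ∧ (placeRep c.1.2) = (placeRep c'.1.2) :=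
      ⟨c, rfl, rfl⟩
    simp only [val, dif_pos hex]
    obtain ⟨h1, h2⟩ := hex.choose_spec
    have e : hex.choose = c := by
      generalize hex.choose = c' at h1 h2 ⊢
      obtain ⟨⟨q, d⟩, hd⟩ := c
      obtain ⟨⟨q', d'⟩, hd'⟩ := c'
      obtain rfl : q = q' := Subtype.ext (Option.some_inj.mp h1)
      obtain rfl : d = d' := by
        have h3 := congrArg (DoubleCoset.mk (decomp (some q.1)) H) h2
        rwa [mk_placeRep, mk_placeRep] at h3
      rfl
    rw [e]
  have hval0 : ∀ q ∉ T₂, ∀ r, val (some q) r = 0 := fun q hq r =>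
    dif_neg fun ⟨c, hc, _⟩ => hq (by rw [Option.some_inj.mp hc]; exact c.1.1.2)
  have hvalfix : ∀ v r, ∀ e : locSub (decomp v) H r, (e : decomp v) • val v r = val v r := by
    intro v r e
    by_cases h : ∃ c : NSIdx T₂ H H', v = some c.1.1.1 ∧ r = (placeRep c.1.2)
    · obtain ⟨c, rfl, rfl⟩ := h
      rw [hval]
      exact congrArg Additive.ofMul ((a c).2 e.1 e.2)
    · simp only [val, dif_neg h, smul_zero]
  clear_value val
  choose B hB using fun v => exists_glue (D := decomp v) (H := H) (fun r _ => val v r)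
    fun r e _ => (hvalfix v r e).symm
  have hBr : ∀ v g, ∃ d : decomp v, B v g = d • val v (dRep (decomp v) H g) := fun v g => by
    obtain ⟨d, k, hg⟩ := exists_eq_dRep (D := decomp v) H g
    exact ⟨d, (congrArg (B v) hg).trans (hB v d g k)⟩
  have hBc : ∀ v, IsComp (decomp v) H (B v) := fun v => by
    refine ⟨fun d g => ?_, fun g s hs => ?_⟩
    all_goals
      obtain ⟨d', k, hg⟩ := exists_eq_dRep (D := decomp v) H g
      have hB' := fun d k => hB v d g k
      generalize dRep (decomp v) H g = r at hg hB'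
      subst hg
    · rw [show (d : GQ) * ((d' : GQ) * r * k) = ((d * d' : decomp v) : GQ) * r * k by
        rw [Subgroup.coe_mul]; group, hB', hB', mul_smul]
    · rw [mul_assoc _ (k : GQ) s, show (k : GQ) * s = ((k * ⟨s, hs⟩ : H) : GQ) from rfl, hB', hB']
  have hB0 : ∀ q ∉ T₂, ∀ g, B (some q) g = 0 := fun q hq g => by
    obtain ⟨d, hd⟩ := hBr (some q) g
    rw [hd, hval0 q hq, smul_zero]
  let f : idele T := ideleOfComp hN B (fun v => ⟨(hBc v).equiv, fun g s hs => (hBc v).inv g s (hle hs)⟩)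
    (T₂.finite_toSet.subset fun q ⟨g, hg⟩ => by_contra fun hq => hg (by
      rw [hB0 q hq]; exact zero_mem _))
  refine ⟨⟨f.1, f.2, fun v g h hh => congrArg Additive.toMul ((hBc v).inv g h hh)⟩, funext fun c => ?_,
    fun q hq g => congrArg Additive.toMul (hB0 q hq g)⟩
  rw [← ha c]
  show (QuotientGroup.mk _ : fixedUnits (nsLoc T₂ H H' H c) ⧸
    locNorms (nsLoc T₂ H H' H c) (nsLoc T₂ H H' H' c)) = _
  refine congrArg (QuotientGroup.mk (s := locNorms (nsLoc T₂ H H' H c) (nsLoc T₂ H H' H' c)))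
    (Subtype.ext ?_)
  show (B (some c.1.1.1) (placeRep c.1.2)).toMul = _
  have hr : dRep (decomp (some c.1.1.1)) H (placeRep c.1.2) = (placeRep c.1.2) := by
    rw [dRep, mk_placeRep]
    rfl
  have h := hB (some c.1.1.1) 1 (placeRep c.1.2) 1
  rw [hr, one_smul, hval, Subgroup.coe_one, Subgroup.coe_one, one_mul, mul_one] at h
  rw [h]
  rfl

/-- The residues of a unit away from `T₂`. -/
def thetaUnit {N : Subgroup GQ} (hN : (LT T).IsLevel N) (hle : N ≤ H) :
    sUnits T₂ H →* fixedIdeles T H where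
  toFun s := ⟨diag (s : ℚbˣ), diag_mem_fixedIdeles hN hle s.2.1⟩
  map_one' := Subtype.ext (map_one diag)
  map_mul' s s' := Subtype.ext (map_mul diag (s : ℚbˣ) (s' : ℚbˣ))

/-- The norms of units away from `T₂` have trivial residues. -/
theorem theta_powProd (hc : CycP p H H' t) {N : Subgroup GQ} (hN : (LT T).IsLevel N) (hle : N ≤ H')
    {s : sUnits T₂ H} {y : ℚbˣ} (hy : ∀ h ∈ H', (h : GQ) • y = y) (e : powProd p t y = s) :
    theta T T₂ H H' (thetaUnit hN (hle.trans hc.le) s) = 1 := by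
  refine theta_eq_one hc hN hle _ (diag_mem_fixedIdeles hN hle hy) fun v g => ?_
  show g • (s : ℚbˣ) = ∏ i ∈ range p, (g * t ^ i) • y
  rw [← e, powProd_apply, smul_prod']
  exact prod_congr rfl fun i _ => (mul_smul g (t ^ i) y).symm

end Fermat.Agent.GD
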