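import Fermat.Agent.GD.Global.Basic.Components
import Fermat.Agent.GD.Global.First.Cyclic

/-!
# Norms of equivariant functions, place by place
-/

set_option autoImplicit false
set_option linter.style.haveILetI false
set_option linter.unusedSectionVars false

noncomputable section

namespace Fermat.Agent.GD

open Finset
open Fermat.Agent.Galois (GQ)

local notation "ℚb" => AlgebraicClosure ℚ

/-- A double coset over which the layer does not split. -/
def NonSplit (v : Place) (H H' : Subgroup GQ) (r : GQ) : Prop :=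
  ∃ e : locSub (decomp v) H r, ((cj e : H) : GQ) ∉ H'

/-- Units fixed by the bottom of an unramified layer are norms of units. -/
theorem exists_unit_nm (q : Nat.Primes) (K K' NL : Subgroup (LD (some q)).G)
    (hNL : (LD (some q)).IsLevel NL)
    (hI : ∀ s : (LD (some q)).G, s.1 ∈ (placeAt q).inertiaSubgroupIn ℚ → s ∈ NL)
    (hle : NL ≤ K') (hle' : K' ≤ K) {u : ℚbˣ} (hu : u ∈ (placeAt q).unitGroup)
    (hfix : u ∈ fixedUnits K) :
    ∃ y : Additive ℚbˣ, y ∈ unitA q ∧ y ∈ fixPts (Additive ℚbˣ) K' ∧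
      nm K K' y = Additive.ofMul u := by
  classical
  have hn := (LD (some q)).normal NL hNL
  haveI := (LD (some q)).finiteIndex NL hNL
  have hN : Unram NL := ⟨⟨NL, hNL, le_rfl⟩, hn, hI⟩
  obtain ⟨σ, hσK, hσ⟩ := exists_generator hN (hle.trans hle')
  have hex : ∃ i, 0 < i ∧ σ ^ i ∈ NL :=
    ⟨NL.index, Nat.pos_of_ne_zero Subgroup.FiniteIndex.index_ne_zero, Subgroup.pow_index_mem NL σ⟩
  let m := Nat.find hex
  obtain ⟨hm, hσm⟩ : 0 < m ∧ σ ^ m ∈ NL := Nat.find_spec hex
  have hmin : ∀ i, 0 < i → i < m → σ ^ i ∉ NL := fun i h0 h h' => Nat.find_min hex h ⟨h0, h'⟩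
  obtain ⟨y, hyN, hy1, hy⟩ := exists_unit_norm hN (hle.trans hle') hσK hσ hm hσm hmin
    ((ValuationSubring.mem_unitGroup_iff _ _).mp hu) (fun h hh => congrArg Units.val (hfix h hh))
  have hy0 : y ≠ 0 := fun h => by rw [h, map_zero] at hy1; exact zero_ne_one hy1
  set Y : Additive ℚbˣ := Additive.ofMul (Units.mk0 y hy0)
  have hYU : Y ∈ unitA q := (ValuationSubring.mem_unitGroup_iff _ _).mpr hy1
  have hY : Y ∈ fixPts (Additive ℚbˣ) NL := fun s hs =>
    congrArg Additive.ofMul (Units.ext (hyN s hs))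
  have hK' : (LD (some q)).IsOpen K' := ⟨NL, hNL, hle⟩
  refine ⟨nm K' NL Y, ?_, nm_mem ⟨NL, hNL, le_rfl⟩ hY, ?_⟩
  · haveI := finite_quot (H := K') (L := LD (some q)) ⟨NL, hNL, le_rfl⟩
    haveI : Fintype (K' ⧸ NL.subgroupOf K') := Fintype.ofFinite _
    rw [nm, finsum_eq_sum_of_fintype]
    exact sum_mem fun s _ => smul_mem_unitA (q := q) (s.out : K').1 hYU
  · rw [nm_trans hle' hle hK' ⟨NL, hNL, le_rfl⟩ hY,
      nm_eq_sum (fun i : Fin m => (⟨σ, hσK⟩ : K) ^ (i : ℕ)) ⟨fun i j h => ?_, fun c => ?_⟩ hY]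
    · refine Additive.toMul.injective ?_
      rw [toMul_sum]
      refine Units.ext ?_
      rw [Units.coe_prod]
      refine Eq.trans ?_ hy
      rw [← Fin.prod_univ_eq_prod_range (fun i => toGQ (σ ^ i) y)]
      refine prod_congr rfl fun i _ => ?_
      rw [SubgroupClass.coe_pow]
      rfl
    · have key : ∀ i j : ℕ, i ≤ j → j < m → (σ ^ i)⁻¹ * σ ^ j ∈ NL → i = j := fun i j hij hj h => by
        obtain ⟨k, rfl⟩ := Nat.exists_eq_add_of_le hij
        rw [pow_add, inv_mul_cancel_left] at h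
        rcases Nat.eq_zero_or_pos k with rfl | hk
        · rfl
        · exact absurd h (hmin k hk (by omega))
      have h' : (σ ^ (i : ℕ))⁻¹ * σ ^ (j : ℕ) ∈ NL := by
        simpa [Subgroup.mem_subgroupOf] using! QuotientGroup.eq.mp h
      rcases le_total (i : ℕ) j with hij | hij
      · exact Fin.ext (key _ _ hij j.2 h')
      · refine Fin.ext (key _ _ hij i.2 ?_).symm
        simpa using! NL.inv_mem h'
    · obtain ⟨g, rfl⟩ := QuotientGroup.mk_surjective c
      obtain ⟨i, hi⟩ := hσ g g.2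
      refine ⟨⟨i % m, Nat.mod_lt _ hm⟩, QuotientGroup.eq.mpr (Subgroup.mem_subgroupOf.mpr ?_)⟩
      have hmp : σ ^ (m * (i / m)) ∈ NL := by rw [pow_mul]; exact NL.pow_mem hσm _
      have h1 := NL.inv_mem hi
      rw [mul_inv_rev, inv_inv, ← Nat.div_add_mod i m, pow_add, mul_inv_rev, mul_assoc] at h1
      have h2 := NL.mul_mem (by simpa using! hn.conj_mem _ hmp (σ ^ (i % m))⁻¹) h1
      convert h2 using 1
      rw [Subgroup.coe_mul, Subgroup.coe_inv, SubgroupClass.coe_pow]
      group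

variable {p : ℕ} [hp : Fact p.Prime] {H H' : Subgroup GQ} {t : GQ} {v : Place} {r : GQ}

theorem locSub_mono (hle : H' ≤ H) : locSub (decomp v) H' r ≤ locSub (decomp v) H r :=
  fun _ h => hle h

/-- Conjugation as a homomorphism. -/
def cjHom (v : Place) (H : Subgroup GQ) (r : GQ) : locSub (decomp v) H r →* H where
  toFun := cj
  map_one' := Subtype.ext (by rw [coe_cj, Subgroup.coe_one, Subgroup.coe_one, Subgroup.coe_one]; group)
  map_mul' := cj_mul

theorem cj_pow (e : locSub (decomp v) H r) (i : ℕ) : cj (e ^ i) = cj e ^ i :=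
  map_pow (cjHom v H r) e i

theorem CycP.pow_congr (hc : CycP p H H' t) {a : GQ} (ha : a ∈ H) (h : t⁻¹ * a ∈ H') (i : ℕ) :
    (a ^ i)⁻¹ * t ^ i ∈ H' := by
  induction i with
  | zero => simp
  | succ i ih =>
    have h1 := H'.mul_mem (hc.conj_mem ha ih) (H'.inv_mem h)
    convert h1 using 1
    rw [pow_succ, pow_succ]
    group

theorem CycP.nonSplit_of_gen (hc : CycP p H H' t) {e : locSub (decomp v) H r}
    (he : t⁻¹ * ((cj e : H) : GQ) ∈ H') : NonSplit v H H' r :=
  ⟨e, fun h => hc.notMem (by simpa using! H'.mul_mem h (H'.inv_mem he))⟩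

theorem CycP.exists_gen (hc : CycP p H H' t) (h : NonSplit v H H' r) :
    ∃ e : locSub (decomp v) H r, t⁻¹ * ((cj e : H) : GQ) ∈ H' := by
  haveI := hc.normal
  obtain ⟨e, he⟩ := h
  have hne : ((cj e : H) : H ⧸ H'.subgroupOf H) ≠ 1 := fun h1 =>
    he (Subgroup.mem_subgroupOf.mp ((QuotientGroup.eq_one_iff _).mp h1))
  obtain ⟨k, hk⟩ := mem_powers_of_prime_card hc.card_quot hne
    (g' := ((⟨t, hc.mem⟩ : H) : H ⧸ H'.subgroupOf H))
  replace hk : (((cj e) ^ k : H) : H ⧸ H'.subgroupOf H) = ((⟨t, hc.mem⟩ : H) : H ⧸ H'.subgroupOf H) :=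
    (QuotientGroup.mk_pow _ _ _).trans hk
  refine ⟨e ^ k, ?_⟩
  rw [cj_pow]
  exact (hc.mk_eq_iff ⟨t, hc.mem⟩ (cj e ^ k)).mp hk.symm

/-- The layer at a double coset where it does not split. -/
theorem CycP.cycP_local (hc : CycP p H H' t) {e : locSub (decomp v) H r}
    (he : t⁻¹ * ((cj e : H) : GQ) ∈ H') :
    CycP p (locSub (decomp v) H r) (locSub (decomp v) H' r) (e : decomp v) := by
  haveI := hc.normal
  let ψ := (QuotientGroup.mk' (H'.subgroupOf H)).comp (cjHom v H r)
  have hker : ψ.ker = (locSub (decomp v) H' r).subgroupOf (locSub (decomp v) H r) := by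
    ext d
    rw [MonoidHom.mem_ker, Subgroup.mem_subgroupOf]
    exact (QuotientGroup.eq_one_iff _).trans Subgroup.mem_subgroupOf
  have hsurj : ψ.range = ⊤ := MonoidHom.range_eq_top.mpr fun c => by
    obtain ⟨i, rfl⟩ := hc.bijective_pow.2 c
    refine ⟨e ^ (i : ℕ), (hc.mk_eq_iff (cj (e ^ (i : ℕ))) ((⟨t, hc.mem⟩ : H) ^ (i : ℕ))).mpr ?_⟩
    rw [cj_pow, SubgroupClass.coe_pow, SubgroupClass.coe_pow]
    exact hc.pow_congr (cj e).2 he i
  exact ⟨locSub_mono hc.le, hker ▸ inferInstance,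
    by rw [← hker, Subgroup.index_ker, hsurj, Subgroup.card_top, hc.card_quot], e.2,
    fun h => hc.notMem (by simpa using! H'.mul_mem (show ((cj e : H) : GQ) ∈ H' from h) (H'.inv_mem he))⟩

theorem mul_cj_pow_congr (hc : CycP p H H' t) {e : locSub (decomp v) H r}
    (he : t⁻¹ * ((cj e : H) : GQ) ∈ H') {Y : GQ → Additive ℚbˣ} (hY : IsComp (decomp v) H' Y)
    (i : ℕ) : Y (r * t ^ i) = (e : decomp v) ^ i • Y r := by
  have h := hc.pow_congr (cj e).2 he i
  have e1 : r * t ^ i = (((e : decomp v) ^ i : decomp v) : GQ) * r *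
      ((((cj e : H) : GQ) ^ i)⁻¹ * t ^ i) := by
    rw [← SubgroupClass.coe_pow (cj e) i, ← cj_pow,
      show (((e : decomp v) ^ i : decomp v) : GQ) * r = r * ((cj (e ^ i) : H) : GQ) by
        rw [mul_cj]; simp]
    group
  rw [e1, hY.inv _ _ h, hY.equiv]

theorem IsComp.mem_fixPts {K : Subgroup GQ} {Y : GQ → Additive ℚbˣ}
    (hY : IsComp (decomp v) K Y) :
    Y r ∈ fixPts (L := LD v) (Additive ℚbˣ) (locSub (decomp v) K r) := fun d hd => by
  have h := hY.equiv d r
  rw [← mul_cj (⟨d, hd⟩ : locSub (decomp v) K r), hY.inv _ _ (cj _).2] at h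
  exact h.symm

/-- The value of a norm at a double coset where the layer does not split is a local norm. -/
theorem norm_comp_apply (hc : CycP p H H' t) {e : locSub (decomp v) H r}
    (he : t⁻¹ * ((cj e : H) : GQ) ∈ H') {Y : GQ → Additive ℚbˣ} (hY : IsComp (decomp v) H' Y) :
    ∑ i ∈ range p, Y (r * t ^ i) =
      nm (L := LD v) (locSub (decomp v) H r) (locSub (decomp v) H' r) (Y r) := by
  rw [CycP.nm_eq (L := LD v) (hc.cycP_local he) hY.mem_fixPts]
  exact sum_congr rfl fun i _ => mul_cj_pow_congr hc he hY i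

theorem sum_range_shift {M : Type*} [AddCommMonoid M] [IsRightCancelAdd M] {n : ℕ} (Φ : ℕ → M)
    (hΦ : ∀ i, Φ (i + n) = Φ i) (j : ℕ) :
    ∑ i ∈ range n, Φ (j + i) = ∑ i ∈ range n, Φ i := by
  induction j with
  | zero => simp
  | succ j ih =>
    rw [← ih]
    have h := sum_range_succ' (fun i => Φ (j + i)) n
    rw [sum_range_succ, add_zero, hΦ] at h
    rw [show ∑ i ∈ range n, Φ (j + 1 + i) = ∑ i ∈ range n, Φ (j + (i + 1)) from
      sum_congr rfl fun i _ => by rw [add_right_comm, ← add_assoc]]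
    exact (add_right_cancel h).symm

/-- Gluing local norms. -/
theorem exists_norm_comp (hc : CycP p H H' t) (U : AddSubgroup (Additive ℚbˣ))
    (hU : ∀ (d : decomp v), ∀ a ∈ U, d • a ∈ U) (F : GQ → Additive ℚbˣ)
    (hF : IsComp (decomp v) H F)
    (hloc : ∀ r, ∃ y ∈ U, (∀ d : locSub (decomp v) H' r, (d : decomp v) • y = y) ∧
      (¬ NonSplit v H H' r → y = F r) ∧
      ∀ e : locSub (decomp v) H r, t⁻¹ * ((cj e : H) : GQ) ∈ H' →
        ∑ i ∈ range p, (e : decomp v) ^ i • y = F r) :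
    ∃ Y, IsComp (decomp v) H' Y ∧ (∀ g, Y g ∈ U) ∧ ∀ g, ∑ i ∈ range p, Y (g * t ^ i) = F g := by
  classical
  choose y hyU hyfix hysplit hygen using hloc
  let Fn : GQ → H → Additive ℚbˣ := fun r k =>
    if h : ∃ e : locSub (decomp v) H r, (((cj e)⁻¹ * k : H) : GQ) ∈ H' then
      (h.choose : decomp v) • y r else 0
  have hFn : ∀ r k (e : locSub (decomp v) H r), (((cj e)⁻¹ * k : H) : GQ) ∈ H' →
      Fn r k = (e : decomp v) • y r := by
    intro r k e he
    have hex : ∃ e : locSub (decomp v) H r, (((cj e)⁻¹ * k : H) : GQ) ∈ H' := ⟨e, he⟩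
    simp only [Fn, dif_pos hex]
    have hm : (((cj (e⁻¹ * hex.choose)) : H) : GQ) ∈ H' := by
      have h := H'.mul_mem he (H'.inv_mem hex.choose_spec)
      rw [cj_mul, cj_inv]
      convert h using 1
      simp only [Subgroup.coe_mul, Subgroup.coe_inv]
      group
    have h1 : ((e⁻¹ * hex.choose : locSub (decomp v) H r) : decomp v) • y r = y r :=
      hyfix r ⟨((e⁻¹ * hex.choose : locSub (decomp v) H r) : decomp v), hm⟩
    rw [Subgroup.coe_mul, Subgroup.coe_inv, mul_smul, inv_smul_eq_iff] at h1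
    exact h1
  have hFn0 : ∀ r k, (∀ e : locSub (decomp v) H r, (((cj e)⁻¹ * k : H) : GQ) ∉ H') →
      Fn r k = 0 := fun r k h => dif_neg fun ⟨e, he⟩ => h e he
  clear_value Fn
  have hFe : ∀ r (e : locSub (decomp v) H r) (k : H),
      Fn r (cj e * k) = (e : decomp v) • Fn r k := by
    intro r e k
    by_cases h : ∃ e' : locSub (decomp v) H r, (((cj e')⁻¹ * k : H) : GQ) ∈ H'
    · obtain ⟨e', he'⟩ := h
      rw [hFn r _ (e * e') (by rwa [cj_mul, mul_inv_rev, mul_assoc, inv_mul_cancel_left]),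
        hFn r k e' he', Subgroup.coe_mul, mul_smul]
    · push Not at h
      rw [hFn0 r k h, smul_zero, hFn0 r _ fun e' => ?_]
      have := h (e⁻¹ * e')
      rwa [cj_mul, cj_inv, mul_inv_rev, inv_inv, mul_assoc] at this
  have hFN : ∀ r (k s : H), (s : GQ) ∈ H' → Fn r (k * s) = Fn r k := by
    intro r k s hs
    have hiff : ∀ e : locSub (decomp v) H r, (((cj e)⁻¹ * (k * s) : H) : GQ) ∈ H' ↔
        (((cj e)⁻¹ * k : H) : GQ) ∈ H' := fun e => by
      rw [← mul_assoc, Subgroup.coe_mul _ ((cj e)⁻¹ * k) s, H'.mul_mem_cancel_right hs]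
    by_cases h : ∃ e : locSub (decomp v) H r, (((cj e)⁻¹ * k : H) : GQ) ∈ H'
    · obtain ⟨e, he⟩ := h
      rw [hFn r k e he, hFn r _ e ((hiff e).mpr he)]
    · push Not at h
      rw [hFn0 r k h, hFn0 r _ fun e h' => h e ((hiff e).mp h')]
  obtain ⟨B, hB⟩ := exists_glue (D := decomp v) Fn hFe
  refine ⟨B, ⟨fun d g => ?_, fun g s hs => ?_⟩, fun g => ?_, fun g => ?_⟩
  all_goals
    obtain ⟨d', k, hg⟩ := exists_eq_dRep (D := decomp v) H g
    have hB' := fun d k => hB d g k
    clear hB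
    generalize dRep (decomp v) H g = r at hg hB'
    subst hg
  · rw [show (d : GQ) * ((d' : GQ) * r * k) = ((d * d' : decomp v) : GQ) * r * k by
      rw [Subgroup.coe_mul]; group, hB', hB', mul_smul]
  · rw [mul_assoc _ (k : GQ) s, show (k : GQ) * s = ((k * ⟨s, hc.le hs⟩ : H) : GQ) from rfl, hB', hB',
      hFN r k _ hs]
  · rw [hB']
    refine hU _ _ ?_
    by_cases h : ∃ e : locSub (decomp v) H r, (((cj e)⁻¹ * k : H) : GQ) ∈ H'
    · obtain ⟨e, he⟩ := h
      rw [hFn r k e he]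
      exact hU _ _ (hyU r)
    · push Not at h
      rw [hFn0 r k h]
      exact U.zero_mem
  · set tH : H := ⟨t, hc.mem⟩
    obtain ⟨j, -, hj⟩ := hc.exists_rep k.2
    have hper : ∀ i, Fn r (tH ^ (i + p)) = Fn r (tH ^ i) := fun i => by
      rw [pow_add]
      exact hFN r _ _ (by rw [SubgroupClass.coe_pow]; exact hc.pow_prime_mem)
    have hterm : ∀ i : ℕ, B ((d' : GQ) * r * k * t ^ i) = d' • Fn r (tH ^ (j + i)) := fun i => by
      rw [mul_assoc _ (k : GQ), show (k : GQ) * t ^ i = ((k * tH ^ i : H) : GQ) by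
        rw [Subgroup.coe_mul, SubgroupClass.coe_pow], hB',
        show k * tH ^ i = tH ^ (j + i) * ((tH ^ i)⁻¹ * ((tH ^ j)⁻¹ * k) * tH ^ i) by
          rw [pow_add]; group,
        hFN r _ _ ?_]
      simpa [tH] using! hc.conj_mem (H.pow_mem hc.mem i) hj
    rw [sum_congr rfl fun i _ => hterm i, ← smul_sum, sum_range_shift (fun i => Fn r (tH ^ i)) hper j, mul_assoc,
      hF.equiv, hF.inv _ _ k.2]
    congr 1
    by_cases hns : NonSplit v H H' r
    · obtain ⟨e, he⟩ := hc.exists_gen hns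
      rw [← hygen r e he]
      refine sum_congr rfl fun i _ => ?_
      rw [← SubgroupClass.coe_pow e i]
      exact hFn r _ (e ^ i) (by simpa [cj_pow, tH] using! hc.pow_congr (cj e).2 he i)
    · have hcj1 : cj (1 : locSub (decomp v) H r) = 1 := map_one (cjHom v H r)
      have hsp : ∀ e : locSub (decomp v) H r, ((cj e : H) : GQ) ∈ H' := fun e =>
        by_contra fun h => hns ⟨e, h⟩
      rw [sum_eq_single_of_mem 0 (mem_range.mpr hp.out.pos) fun i hi hi0 => hFn0 r _ fun e h => ?_,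
        hFn r (tH ^ 0) 1 (by simp [hcj1]), Subgroup.coe_one, one_smul, hysplit r hns]
      have h2 := H'.mul_mem (hsp e) h
      rw [Subgroup.coe_mul, ← mul_assoc, Subgroup.coe_inv, mul_inv_cancel, one_mul,
        SubgroupClass.coe_pow] at h2
      exact hi0 (hc.eq_of_rep (mem_range.mp hi) hp.out.pos (by simpa [tH] using! h2))

/-- An equivariant unit function at an unramified place is a norm. -/
theorem exists_unit_norm_comp {T : Finset Nat.Primes} (hc : CycP p H H' t) {N : Subgroup GQ}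
    (hN : (LT T).IsLevel N) (hle : N ≤ H') {q : Nat.Primes} (hq : q ∉ T) (F : GQ → Additive ℚbˣ)
    (hF : IsComp (decomp (some q)) H F) (hFU : ∀ g, F g ∈ unitA q) :
    ∃ Y, IsComp (decomp (some q)) H' Y ∧ (∀ g, Y g ∈ unitA q) ∧
      ∀ g, ∑ i ∈ range p, Y (g * t ^ i) = F g := by
  haveI := normal_of_level hN
  refine exists_norm_comp hc (unitA q) (fun d a ha => smul_mem_unitA d ha) F hF fun r => ?_
  by_cases hns : NonSplit (some q) H H' r
  · obtain ⟨y, hyU, hyfix, hy⟩ := exists_unit_nm q (locSub (decomp (some q)) H r)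
      (locSub (decomp (some q)) H' r) (N.subgroupOf (decomp (some q))) (isLevel_LD_of_LT hN _)
      (inertia_le_level hN hq) (subgroupOf_le_locSub hle _ r) (locSub_mono hc.le) (u := (F r).toMul)
      (hFU r) (fun h hh => congrArg Additive.toMul (hF.mem_fixPts (r := r) h hh))
    refine ⟨y, hyU, fun d => hyfix d.1 d.2, fun h => absurd hns h, fun e he => ?_⟩
    exact (CycP.nm_eq (L := LD (some q)) (hc.cycP_local he) hyfix).symm.trans hy
  · exact ⟨F r, hFU r, fun d => hF.mem_fixPts (r := r) d.1 (hc.le d.2), fun _ => rfl,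
      fun e he => absurd (hc.nonSplit_of_gen he) hns⟩

end Fermat.Agent.GD
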